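import Fermat.Agent.S15.Contracts
import Fermat.Agent.S37.RDiv
import Fermat.Agent.S28.Interface
import Fermat.Agent.S24.Psi
import Fermat.Agent.S24.JLocal

/-!
# S15 / M1 (moduli bridge): CONTRACTS OF THE BLOCK (lead architect: helper24)

ROUTE = "modular unit" (helper13 STAR = helper14 PSI = helper11 PROD, helper92 (S1),(S2)).

* meter on the elliptic curve side: `meter W N Q = (∏_{k=1}^{N-1} ψ₂(kQ))⁴ / Δ^{N-1}`, `ψ₂ = 2y + a₁x + a₃`
  (weight `0`, invariant under changes of variables and field maps);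
* meter on the modular side: the modular unit `uF N = Δ(q)/Δ(q^N) ∈ FN N`;
* dictionary: `u(x) = N¹² · meter`.

CHAIN
```
 M1a (done) + UNIF + ADAPT + STAR            ⟹ AnOut      (pure analysis, over ℂ)
 U (uSer ∈ FN N, realisation) + PL            ⟹ PlaceOut   (a point τ of ℍ gives a place)
 LOC (S58/LocM)                               ⟹ LocOut     (valuations of ψ₂)
 AnOut + PlaceOut + LocOut                    ⟹ M1Num      (numeric output, `(j,u)`-coordinates)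
 CUSP (orders of j, j_N, u at oo, zz) + GAL/RED ⟹ RedInf, RedZero, Fixed (what OUTER consumes)
```
-/

set_option autoImplicit false

noncomputable section

namespace Fermat.Agent.S15.M1

open AlgebraicCurve ModularCurve Fermat.Agent.S24 WeierstrassCurve WeierstrassCurve.Affine
  UpperHalfPlane Fermat.Agent.S24.JLocal

local notation "Δ" => ModularForm.discriminant

/-! ## the two meters -/

/-- `ψ₂(P) = 2y + a₁x + a₃` (`0` at the origin). -/
def psi2 {F : Type*} [Field F] (W : WeierstrassCurve F) : W.toAffine.Point → F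
  | .zero => 0
  | .some x y _ => 2 * y + W.a₁ * x + W.a₃

/-- `(∏_{k=1}^{N-1} ψ₂(kQ))⁴ / Δ^{N-1}`. -/
def meter {F : Type*} [Field F] [DecidableEq F] (W : WeierstrassCurve F) (N : ℕ)
    (Q : W.toAffine.Point) : F :=
  (∏ k ∈ Finset.Ico 1 N, psi2 W (k • Q)) ^ 4 / W.Δ ^ (N - 1)

/-- the `q`-expansion of `Δ(q)/Δ(q^N)`. -/
def uSer (N : ℕ) [NeZero N] : LaurentSeries Kbar :=
  S28.DlL Kbar * qExpand Kbar N (S28.DlLinv Kbar)

/-- **CONTRACT U1**: the modular unit lies in `FN N`. -/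
def UMem : Prop := ∀ (N : ℕ) [NeZero N], uSer N ∈ modularFunctionFieldBar N

open Classical in
/-- The modular unit `Δ(q)/Δ(q^N)` as an element of `FN N` (junk value `1` if `UMem` fails). -/
def uF (N : ℕ) [NeZero N] : FN N :=
  if h : uSer N ∈ modularFunctionFieldBar N then ⟨uSer N, h⟩ else 1

theorem coe_uF (h : UMem) (N : ℕ) [NeZero N] : (uF N : LaurentSeries Kbar) = uSer N := by
  rw [uF, dif_pos (h N)]

/-! ## analysis -/

/-- **CONTRACT AN** (M1a + UNIF + ADAPT + STAR). -/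
def AnOut : Prop :=
  ∀ (N : ℕ) [NeZero N], N.Prime → N ≠ 2 → ∀ W : WeierstrassCurve ℂ, W.Δ ≠ 0 →
    ∀ Q : W.toAffine.Point, addOrderOf Q = N →
      ∃ τ : ℍ, kleinJ τ = W.c₄ ^ 3 / W.Δ ∧ Δ τ / Δ (mulH N τ) = (N : ℂ) ^ 12 * meter W N Q

/-- **CONTRACT PL** (a point of `ℍ` with algebraic `j` gives a place of `FN N`). -/
def PlaceOut : Prop :=
  ∀ (N : ℕ) [NeZero N] (τ : ℍ) (a : Kbar), kleinJ τ = iota a →
    ∃ (x : Place Kbar (FN N)) (c : Kbar),
      0 < x.ord (jF N - algebraMap Kbar (FN N) a) ∧ 0 < x.ord (uF N - algebraMap Kbar (FN N) c) ∧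
        iota c = Δ τ / Δ (mulH N τ)

/-! ## the local block -/

/-- the curve over `Kbar`. -/
abbrev WK (W : WeierstrassCurve ℤ) : WeierstrassCurve Kbar := (W.map (Int.castRingHom ℚ))⁄Kbar

/-- **CONTRACT LOC** (elementary, all `ℓ ≠ N` including `2, 3`). -/
def LocOut : Prop :=
  ∀ (N : ℕ), N.Prime → N ≠ 2 → ∀ W : WeierstrassCurve ℤ, W.Δ ≠ 0 →
    ∀ Q : (WK W).toAffine.Point, addOrderOf Q = N →
      ∀ ℓ : ℕ, ℓ.Prime → ℓ ≠ N → (ℓ : ℤ) ∣ W.Δ → ¬ (ℓ : ℤ) ∣ W.c₄ →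
        ∀ A : ValuationSubring Kbar, A.LiesOverPrime ℓ →
          (W.InZeroComponentAt A Q →
            A.valuation (∏ k ∈ Finset.Ico 1 N, psi2 (WK W) (k • Q)) = 1) ∧
          (¬ W.InZeroComponentAt A Q →
            A.valuation (∏ k ∈ Finset.Ico 1 N, psi2 (WK W) (k • Q)) < 1)

/-! ## numeric output -/

/-- `x` is the point `(j, u) = (a, c)`. -/
structure IsPtU (p : ℕ) [NeZero p] (x : Place Kbar (FN p)) (a c : Kbar) : Prop where
  ha : 0 < x.ord (jF p - algebraMap Kbar (FN p) a)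
  hc : 0 < x.ord (uF p - algebraMap Kbar (FN p) c)

/-- `(a, c)` is `A`-adically close to the cusp `∞` (`u j^{-(p-1)} = 1 + O(q)`). -/
def UpAt (A : ValuationSubring Kbar) (p : ℕ) (a c : Kbar) : Prop :=
  a ∉ A ∧ A.valuation c = A.valuation a ^ (p - 1)

/-- `(a, c)` is `A`-adically close to the cusp `0` (`u j^{-(p-1)}` vanishes at `0`). -/
def DownAt (A : ValuationSubring Kbar) (p : ℕ) (a c : Kbar) : Prop :=
  a ∉ A ∧ A.valuation c < A.valuation a ^ (p - 1)

/-- **OUTPUT 1 OF M1 (numeric).**  Stated for a Galois stable cyclic subgroup `⟨Q⟩` (S12 uses it too). -/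
def M1Num : Prop :=
  ∀ (p : ℕ) [NeZero p], p.Prime → p ≠ 2 → ∀ (W : WeierstrassCurve ℤ), W.Δ ≠ 0 →
    ∀ Q : (WK W).toAffine.Point,
      (∀ σ : GQ, σ • Q ∈ AddSubgroup.zmultiples Q) → addOrderOf Q = p →
      ∃ (x : Place Kbar (FN p)) (c : Kbar), (∀ σ : GQ, σ c = c) ∧ IsPtU p x (jW W) c ∧
        ∀ ℓ : ℕ, ℓ.Prime → ℓ ≠ p → (ℓ : ℤ) ∣ W.Δ → ¬ (ℓ : ℤ) ∣ W.c₄ →
          ∀ A : ValuationSubring Kbar, A.LiesOverPrime ℓ →
            (W.InZeroComponentAt A Q → UpAt A p (jW W) c) ∧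
            (¬ W.InZeroComponentAt A Q → DownAt A p (jW W) c)

/-! ## reduction (what OUTER consumes).  Setting and notation of `S37/RDiv*.lean`:
`c` an auxiliary level (`p * c` neat, prime to `ℓ`), `r` the reduction map on the places of `FN (p * c)`,
`S37.Rdiv r = r_* ∘ π^* : Div (FN p) → Div (E k (p * c))`. -/

section Red

open Fermat.Agent.S37 Fermat.Agent.GAL Fermat.Agent.GAL.RED Fermat.Agent.GAL.Igusa Fermat.Agent.Lib.RR

/-- **CONTRACT CUSP**: the divisors of `j`, `j_p`, `u` (`p` prime): the only poles of `j` are `oo` (simple) and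
`zz` (order `p`); for `j_p` the orders are exchanged; `div u = (p-1)((zz) - (oo))`. -/
structure CuspFacts (p : ℕ) [NeZero p] : Prop where
  ne : zz p ≠ S17.Unr.oo p
  j_oo : (S17.Unr.oo p).ord (jF p) = -1
  j_zz : (zz p).ord (jF p) = -(p : ℤ)
  j_else : ∀ v : Place Kbar (FN p), v ≠ S17.Unr.oo p → v ≠ zz p → 0 ≤ v.ord (jF p)
  jp_oo : (S17.Unr.oo p).ord (FNAdjoin.jd p p dvd_rfl) = -(p : ℤ)
  jp_zz : (zz p).ord (FNAdjoin.jd p p dvd_rfl) = -1
  jp_else : ∀ v : Place Kbar (FN p), v ≠ S17.Unr.oo p → v ≠ zz p →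
    0 ≤ v.ord (FNAdjoin.jd p p dvd_rfl)
  u_ne : uF p ≠ 0
  u_oo : (S17.Unr.oo p).ord (uF p) = -((p : ℤ) - 1)
  u_zz : (zz p).ord (uF p) = (p : ℤ) - 1
  u_else : ∀ v : Place Kbar (FN p), v ≠ S17.Unr.oo p → v ≠ zz p → v.ord (uF p) = 0

/-- **CONTRACT CUSP.** -/
def CuspOut : Prop := ∀ (p : ℕ) [NeZero p], p.Prime → CuspFacts p

/-- **OUTPUT 2 OF M1**: a point which is `Up` at `A` reduces like the cusp `∞`. -/
def RedInf : Prop :=
  ∀ (p c : ℕ) [NeZero p] [NeZero c], p.Prime → p ≠ 2 → ∀ (A : ValuationSubring Kbar)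
    [IsAlgClosed (IsLocalRing.ResidueField ↥A)]
    [Lib.RR.IsFF (IsLocalRing.ResidueField ↥A) (E (IsLocalRing.ResidueField ↥A) (p * c))]
    (hM : ((p * c : ℕ) : (IsLocalRing.ResidueField ↥A)) ≠ 0),
    genusFF Kbar (FN (p * c)) =
      genusFF (IsLocalRing.ResidueField ↥A) (E (IsLocalRing.ResidueField ↥A) (p * c)) →
    ∀ r : Place Kbar (FN (p * c)) →
      Place (IsLocalRing.ResidueField ↥A) (E (IsLocalRing.ResidueField ↥A) (p * c)),
      IsRedMap (redFN A (p * c) hM) r →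
      ∀ (x : Place Kbar (FN p)) (a e : Kbar), IsPtU p x a e → UpAt A p a e →
        Rdiv r (pt x) = Rdiv r (pt (S17.Unr.oo p))

/-- **OUTPUT 3 OF M1**: a point which is `Down` at `A` reduces like the cusp `0`. -/
def RedZero : Prop :=
  ∀ (p c : ℕ) [NeZero p] [NeZero c], p.Prime → p ≠ 2 → ∀ (A : ValuationSubring Kbar)
    [IsAlgClosed (IsLocalRing.ResidueField ↥A)]
    [Lib.RR.IsFF (IsLocalRing.ResidueField ↥A) (E (IsLocalRing.ResidueField ↥A) (p * c))]
    (hM : ((p * c : ℕ) : (IsLocalRing.ResidueField ↥A)) ≠ 0),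
    genusFF Kbar (FN (p * c)) =
      genusFF (IsLocalRing.ResidueField ↥A) (E (IsLocalRing.ResidueField ↥A) (p * c)) →
    ∀ r : Place Kbar (FN (p * c)) →
      Place (IsLocalRing.ResidueField ↥A) (E (IsLocalRing.ResidueField ↥A) (p * c)),
      IsRedMap (redFN A (p * c) hM) r →
      ∀ (x : Place Kbar (FN p)) (a e : Kbar), IsPtU p x a e → DownAt A p a e →
        Rdiv r (pt x) = Rdiv r (pt (zz p))

/-- **OUTPUT 4 OF M1**: the reductions of the two cusps are disjoint. -/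
def RedDisj : Prop :=
  ∀ (p c : ℕ) [NeZero p] [NeZero c], p.Prime → p ≠ 2 → ∀ (A : ValuationSubring Kbar)
    [IsAlgClosed (IsLocalRing.ResidueField ↥A)]
    [Lib.RR.IsFF (IsLocalRing.ResidueField ↥A) (E (IsLocalRing.ResidueField ↥A) (p * c))]
    (hM : ((p * c : ℕ) : (IsLocalRing.ResidueField ↥A)) ≠ 0),
    genusFF Kbar (FN (p * c)) =
      genusFF (IsLocalRing.ResidueField ↥A) (E (IsLocalRing.ResidueField ↥A) (p * c)) →
    ∀ r : Place Kbar (FN (p * c)) →
      Place (IsLocalRing.ResidueField ↥A) (E (IsLocalRing.ResidueField ↥A) (p * c)),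
      IsRedMap (redFN A (p * c) hM) r →
      Disjoint (Rdiv r (pt (S17.Unr.oo p))).support (Rdiv r (pt (zz p))).support

/-- **OUTPUT 5 OF M1**: a point with rational coordinates `(j, u)` which is `Up` at ONE place `A` (over a prime
`ℓ ≠ p`) is fixed by `G_ℚ`  (helper92's (S2): exactly one place over `j = a` reduces to `∞` mod `A`). -/
def Fixed : Prop :=
  ∀ (p : ℕ) [NeZero p], p.Prime → p ≠ 2 → ∀ (x : Place Kbar (FN p)) (a e : Kbar),
    (∀ σ : GQ, σ a = a) → (∀ σ : GQ, σ e = e) → IsPtU p x a e →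
    ∀ ℓ : ℕ, ℓ.Prime → ℓ ≠ p → ∀ A : ValuationSubring Kbar, A.LiesOverPrime ℓ → UpAt A p a e →
      ∀ σ : GQ, gal p σ • x = x

end Red

end Fermat.Agent.S15.M1
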