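import Fermat.Agent.S15.M1.PL.Out
import Fermat.Agent.S15.M1.U.Meter
import Fermat.Agent.S15.Red.Top
import Fermat.Agent.S15.M1.Unif.ANQ
import Fermat.Agent.S15.M1.Loc.Stable
import Fermat.Agent.S15.M1.Loc.Transport

/-!
# S15 / M1 : THE ASSEMBLY `M1Out` (PL5)

`AN_Qb` (analysis) + `exists_place_of_tau` (place from `τ`) + `LOC` (valuations of `ψ₂`) + `RED` (meters)
+ block `U` (the modular unit) give the contract `S15.M1Out`.

The test function is `fT p = u / j^(p-1)`, `u = Δ(q)/Δ(q^p)`; its value at the point `x` attached to `(W, ⟨Q⟩)` is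
`p¹² (∏ ψ₂(kQ))⁴ / c₄^(3(p-1))`.
-/

set_option autoImplicit false

noncomputable section

namespace Fermat.Agent.S15.M1.Asm

open AlgebraicCurve ModularCurve UpperHalfPlane WeierstrassCurve WeierstrassCurve.Affine
open Fermat.Agent.S24 Fermat.Agent.S24.JLocal Fermat.Agent.S19.Weil Fermat.Agent.S15.Red
open Fermat.Agent.S58 (EP)

local notation "Δ" => ModularForm.discriminant

/-- the test function `u / j^(p-1)`. -/
def fT (p : ℕ) [NeZero p] : FN p := uF p / jF p ^ (p - 1)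

/-- INPUT (block U, U5): the test function is a meter at every `A ∣ ℓ ≠ p`. -/
def MeterIn : Prop :=
  ∀ (p : ℕ) [NeZero p], p.Prime → 5 ≤ p → ∀ ℓ : ℕ, ℓ.Prime → ℓ ≠ p →
    ∀ A : ValuationSubring Kbar, A.LiesOverPrime ℓ → IsMeter A p (fT p)

/-- INPUT (block U, U3): the modular unit has rational coefficients. -/
def GalIn : Prop := ∀ (p : ℕ) [NeZero p], p.Prime → ∀ σ : GQ, gal p σ • uF p = uF p

/-! ### values -/

theorem mem_ev_of_ord_pos {N : ℕ} [NeZero N] (x : Place Kbar (FN N)) {g : FN N} {c : Kbar}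
    (h : 0 < x.ord (g - algebraMap Kbar (FN N) c)) :
    g ∈ x.toValuationSubring ∧ ev x g = c := by
  have h1 : g - algebraMap Kbar (FN N) c ∈ x.toValuationSubring :=
    (mem_iff_ord x _).2 (Or.inr h.le)
  have h2 : g ∈ x.toValuationSubring := by
    have := add_mem h1 (Ev_algebraMap_mem x c)
    rwa [sub_add_cancel] at this
  exact ⟨h2, (ev_eq_iff x h2 c).2 (Or.inr h)⟩

/-- the value of the test function. -/
theorem ev_fT {p : ℕ} [NeZero p] {x : Place Kbar (FN p)} {a c : Kbar} (ha0 : a ≠ 0)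
    (ha : 0 < x.ord (jF p - algebraMap Kbar (FN p) a))
    (hc : 0 < x.ord (uF p - algebraMap Kbar (FN p) c)) :
    ev x (fT p) = c / a ^ (p - 1) := by
  obtain ⟨hj, hja⟩ := mem_ev_of_ord_pos x ha
  obtain ⟨hu, huc⟩ := mem_ev_of_ord_pos x hc
  have hne : ev x (jF p ^ (p - 1)) ≠ 0 := by
    rw [ev_pow, hja]
    exact pow_ne_zero _ ha0
  obtain ⟨h0, h1⟩ := (ev_ne_zero_iff x).1 hne
  have hinv : (jF p ^ (p - 1))⁻¹ ∈ x.toValuationSubring := by
    refine (mem_iff_ord x _).2 (Or.inr ?_)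
    rw [x.ord_inv, h1, neg_zero]
  rw [fT, div_eq_mul_inv, ev_mul x hu hinv, ev_inv, ev_pow, hja, huc, div_eq_mul_inv]

/-! ### the point -/

theorem iota_jW (W : WeierstrassCurve ℤ) : iota (jW W) = (W.c₄ : ℂ) ^ 3 / (W.Δ : ℂ) := by
  rw [jW, map_div₀, map_pow, map_intCast, map_intCast]

/-- the value of `u` at the point. -/
def cW (p : ℕ) (W : WeierstrassCurve ℤ) (Q : EP W) : Kbar :=
  (p : Kbar) ^ 12 * Loc.psiProd Q p ^ 4 / (W.Δ : Kbar) ^ (p - 1)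

/-- **The point of `X₀(p)` attached to `(W, ⟨Q⟩)`.** -/
theorem exists_pt (p : ℕ) [NeZero p] (hp : p.Prime) (hodd : Odd p) (W : WeierstrassCurve ℤ)
    (hΔ : W.Δ ≠ 0) (Q : EP W) (hQ : addOrderOf Q = p) :
    ∃ (x : Place Kbar (FN p)) (b : Kbar), IsPt p x (jW W) b ∧
      0 < x.ord (uF p - algebraMap Kbar (FN p) (cW p W Q)) := by
  obtain ⟨τ, hj, hd⟩ := Unif.AN_Qb hp hodd W hΔ Q hQ Loc.iotaA
  have hΔC : (W.Δ : ℂ) ≠ 0 := by exact_mod_cast hΔ
  have h : kleinJ τ = iota (jW W) := by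
    rw [iota_jW, eq_div_iff hΔC]
    exact hj
  obtain ⟨x, hx, H⟩ := PL.exists_place_of_tau p τ (jW W) h
  obtain ⟨b, -, hb'⟩ := H (FNAdjoin.jd p p dvd_rfl) (EmbedFN.toConvK p ⟨_, FNAdjoin.jd_mem_A p p dvd_rfl⟩).2
  obtain ⟨c, hc, hc'⟩ := H (uF p) (by rw [U.coe_uF p hp]; exact PL.isConv_uSer p)
  have hcne : uF p ≠ algebraMap Kbar (FN p) c := by
    intro h
    have hN' : (1 : ℤ) < p := by exact_mod_cast hp.one_lt
    have h1 := congrArg (fun z : FN p => (z : LaurentSeries Kbar).coeff (1 + (p : ℤ) * (-1))) h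
    rw [PL.coeff_algebraMap_of_ne p c (by omega), U.coe_uF p hp, PL.uSer_coeff] at h1
    exact one_ne_zero h1
  have hcW : c = cW p W Q := by
    apply iota.injective
    rw [hc, U.coe_uF p hp, PL.evalAt_uSer, cW, map_div₀, map_mul, map_pow, map_pow, map_pow,
      map_natCast, map_intCast, div_eq_div_iff (ModularForm.discriminant_ne_zero _)
        (pow_ne_zero _ hΔC), hd]
    rfl
  refine ⟨x, b, ⟨hx, hb'.resolve_left (PL.jd_ne_algebraMap p b)⟩, ?_⟩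
  rw [← hcW]
  exact hc'.resolve_left hcne

/-! ### numerics -/

/-- the value of the test function at the point. -/
def vW (p : ℕ) (W : WeierstrassCurve ℤ) (Q : EP W) : Kbar :=
  (p : Kbar) ^ 12 * Loc.psiProd Q p ^ 4 / (W.c₄ : Kbar) ^ (3 * (p - 1))

theorem cW_div (p : ℕ) (W : WeierstrassCurve ℤ) (Q : EP W) (hΔ : W.Δ ≠ 0) (hc : W.c₄ ≠ 0) :
    cW p W Q / jW W ^ (p - 1) = vW p W Q := by
  have hΔK : (W.Δ : Kbar) ≠ 0 := by exact_mod_cast hΔ
  have hcK : (W.c₄ : Kbar) ≠ 0 := by exact_mod_cast hc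
  rw [cW, vW, jW, div_pow, ← pow_mul]
  field_simp

theorem jW_ne_zero (W : WeierstrassCurve ℤ) (hΔ : W.Δ ≠ 0) (hc : W.c₄ ≠ 0) : jW W ≠ 0 := by
  have hΔK : (W.Δ : Kbar) ≠ 0 := by exact_mod_cast hΔ
  have hcK : (W.c₄ : Kbar) ≠ 0 := by exact_mod_cast hc
  exact div_ne_zero (pow_ne_zero _ hcK) hΔK

theorem jW_fixed (W : WeierstrassCurve ℤ) (σ : GQ) : σ (jW W) = jW W := by
  rw [jW, map_div₀, map_pow, map_intCast, map_intCast]

theorem vW_fixed {p : ℕ} (hp0 : 0 < p) (W : WeierstrassCurve ℤ) (Q : EP W)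
    (hQ : addOrderOf Q = p) (σ : GQ) (hσ : σ • Q ∈ AddSubgroup.zmultiples Q) :
    σ (vW p W Q) = vW p W Q := by
  rw [vW, map_div₀, map_mul, map_pow, map_pow, map_pow, map_natCast, map_intCast,
    Loc.psiProd_fixed' hp0 hQ σ hσ]

theorem jW_not_mem {W : WeierstrassCurve ℤ} {A : ValuationSubring Kbar} (hM : Loc.Mult W A) :
    jW W ∉ A := by
  rw [← ValuationSubring.valuation_le_one_iff, not_le, jW, map_div₀, map_pow, hM.c₄, one_pow,
    one_div]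
  have hΔK : (W.Δ : Kbar) ≠ 0 := by exact_mod_cast hM.Δ_ne
  exact (one_lt_inv₀ (zero_lt_iff.2 ((map_ne_zero _).2 hΔK))).2 hM.Δ_lt

theorem val_vW {p : ℕ} {W : WeierstrassCurve ℤ} {A : ValuationSubring Kbar} (hM : Loc.Mult W A)
    (hpv : A.valuation (p : Kbar) = 1) (Q : EP W) :
    A.valuation (vW p W Q) = A.valuation (Loc.psiProd Q p) ^ 4 := by
  rw [vW, map_div₀, map_mul, map_pow, map_pow, map_pow, hpv, hM.c₄, one_pow, one_pow, one_mul,
    div_one]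

theorem gal_smul_fT (hG : GalIn) {p : ℕ} [NeZero p] (hp : p.Prime) (σ : GQ) :
    gal p σ • fT p = fT p := by
  rw [fT, div_eq_mul_inv, smul_mul', smul_inv'', smul_pow', hG p hp σ, gal_smul_jF]

/-! ### the assembly -/

/-- **`M1Out` from the two remaining inputs of block U.** -/
theorem m1Out_of (hMet : MeterIn) (hG : GalIn) : M1Out := by
  intro p _ hp hp5 W hΔ Q hst hQ hup
  obtain ⟨ℓ₀, hℓ₀, hℓ₀p, hℓ₀Δ, hℓ₀c, A₀, hA₀, hin₀⟩ := hup
  have hodd : Odd p := hp.odd_of_ne_two (by omega)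
  have hc4 : W.c₄ ≠ 0 := by
    intro h
    exact hℓ₀c (by rw [h]; exact dvd_zero _)
  obtain ⟨x, b, hx, hu⟩ := exists_pt p hp hodd W hΔ Q hQ
  have hev : ev x (fT p) = vW p W Q := by
    rw [ev_fT (jW_ne_zero W hΔ hc4) hx.ha hu, cW_div p W Q hΔ hc4]
  have hpv : ∀ {ℓ : ℕ}, ℓ.Prime → ℓ ≠ p → ∀ {A : ValuationSubring Kbar}, A.LiesOverPrime ℓ →
      A.valuation (p : Kbar) = 1 := by
    intro ℓ hℓ hℓp A hA
    exact Loc.val_natCast_eq_one hℓ hA
      (fun h => hℓp ((Nat.prime_dvd_prime_iff_eq hℓ hp).1 h))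
  refine ⟨x, b, ?_, hx, ?_⟩
  · have hM₀ := Loc.mult_of hℓ₀ hΔ hℓ₀Δ hℓ₀c hA₀
    refine fixed_of_meter hp hℓ₀ hℓ₀p hA₀ (hMet p hp hp5 ℓ₀ hℓ₀ hℓ₀p A₀ hA₀)
      (gal_smul_fT hG hp) hx (jW_not_mem hM₀) (jW_fixed W) ?_ ?_
    · intro σ
      rw [hev]
      exact vW_fixed hp.pos W Q hQ σ (hst σ)
    · rw [hev, val_vW hM₀ (hpv hℓ₀ hℓ₀p hA₀),
        hM₀.val_psiProd_eq_one hodd (hpv hℓ₀ hℓ₀p hA₀) hQ hin₀, one_pow]
  · intro ℓ hℓ hℓp hℓΔ hℓc A hA
    have hM := Loc.mult_of hℓ hΔ hℓΔ hℓc hA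
    obtain ⟨-, h1, h2⟩ := near_of_meter' hp hℓ hℓp hA (hMet p hp hp5 ℓ hℓ hℓp A hA) hx
      (jW_not_mem hM)
    rw [hev, val_vW hM (hpv hℓ hℓp hA)] at h1 h2
    refine ⟨fun hin => h1 ?_, fun hin => h2 ?_⟩
    · rw [hM.val_psiProd_eq_one hodd (hpv hℓ hℓp hA) hQ hin, one_pow]
    · exact pow_lt_one₀ zero_le (Loc.val_psiProd_lt_one hp.one_lt (hpv hℓ hℓp hA) hQ hin)
        (by norm_num)

/-- **CONTRACT M1 (moduli bridge).** -/
theorem m1Out : M1Out :=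
  m1Out_of (fun p _ hp _ _ _ _ A _ => U.isMeter_fT p hp A) (fun p _ hp σ => U.gal_smul_uF p hp σ)

end Fermat.Agent.S15.M1.Asm
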